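import Fermat.Agent.TwoLogarithms.Tijdeman

/-!
# A lower bound for `a x ^ n - b y ^ n`

Gelfond's bound for two logarithms, linear in each height, applied to `x / y` and `b / a`: the form
is at least `max (x, y) ^ (n - O ((log n) ^ 2))`.
-/

set_option autoImplicit false

noncomputable section

namespace FA.RootApproximation

open FA.TwoLogarithms

/-- The exponent lost. -/
def rootExponent (a b n : ℕ) : ℕ :=
  6 * 256 ^ 4 * (Nat.log 2 (max a b) + 1) * (Nat.log 2 n + 1) ^ 2

theorem one_le_rootExponent (a b n : ℕ) : 1 ≤ rootExponent a b n :=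
  Nat.mul_pos (Nat.mul_pos (by norm_num) (Nat.succ_pos _)) (Nat.pow_pos (Nat.succ_pos _))

/-- **The form is large.** -/
theorem pow_le_mul_form {a b x y n : ℕ} (ha : 0 < a) (hb : 0 < b) (hx : 0 < x) (hy : 0 < y)
    {c : ℤ} (hc : c ≠ 0) (he : (a : ℤ) * x ^ n - (b : ℤ) * y ^ n = c) :
    max x y ^ n ≤ 2 * c.natAbs * max x y ^ rootExponent a b n := by
  have hc1 : 1 ≤ c.natAbs := Int.natAbs_pos.2 hc
  set Y := max x y with hY
  have hY1 : 1 ≤ Y := le_trans hx (le_max_left _ _)
  have hE := one_le_rootExponent a b n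
  rcases eq_or_ne x y with rfl | hne
  · rw [hY, max_self]
    have h1 : ((a : ℤ) - b).natAbs * x ^ n = c.natAbs := by
      rw [← he, ← sub_mul, Int.natAbs_mul, Int.natAbs_pow, Int.natAbs_natCast]
    have h2 : 0 < ((a : ℤ) - b).natAbs := by
      rw [Int.natAbs_pos]; intro h0; exact hc (by rw [← he, ← sub_mul, h0, zero_mul])
    calc x ^ n ≤ ((a : ℤ) - b).natAbs * x ^ n := Nat.le_mul_of_pos_left _ h2
      _ ≤ 2 * c.natAbs := by omega
      _ ≤ _ := Nat.le_mul_of_pos_right _ (Nat.pow_pos hx)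
  have hY2 : 2 ≤ Y := by omega
  have hX : (0 : ℝ) < (a : ℝ) * x ^ n := by positivity
  have hZ : (0 : ℝ) < (b : ℝ) * y ^ n := by positivity
  have hlog : Real.log ((a : ℝ) * x ^ n) - Real.log ((b : ℝ) * y ^ n) =
      ((n : ℤ) : ℝ) * Real.log ((x : ℝ) / y) - ((1 : ℤ) : ℝ) * Real.log ((b : ℝ) / a) := by
    rw [Real.log_mul (by positivity) (by positivity), Real.log_mul (by positivity) (by positivity),
      Real.log_pow, Real.log_pow, Real.log_div (by positivity) (by positivity),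
      Real.log_div (by positivity) (by positivity)]
    push_cast
    ring
  have habs : |(a : ℝ) * x ^ n - b * y ^ n| = (c.natAbs : ℝ) := by
    rw [Nat.cast_natAbs, Int.cast_abs, ← he]; push_cast; rfl
  have hT : ((Y ^ n : ℕ) : ℝ) ≤ max ((a : ℝ) * x ^ n) ((b : ℝ) * y ^ n) := by
    rcases max_cases x y with ⟨e, -⟩ | ⟨e, -⟩ <;> rw [hY, e] <;> push_cast
    · exact (le_mul_of_one_le_left (by positivity) (by exact_mod_cast ha)).trans (le_max_left _ _)
    · exact (le_mul_of_one_le_left (by positivity) (by exact_mod_cast hb)).trans (le_max_right _ _)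
  have hmain : ∀ δ : ℕ, 0 < δ → 1 / (δ : ℝ) ≤ |((n : ℤ) : ℝ) * Real.log ((x : ℝ) / y) -
      ((1 : ℤ) : ℝ) * Real.log ((b : ℝ) / a)| → Y ^ n ≤ 2 * c.natAbs * δ := fun δ hδ h => by
    have h1 := max_mul_le_abs_sub hX hZ (by positivity) (by
      rw [div_le_one (Nat.cast_pos.2 hδ)]; exact_mod_cast hδ) (hlog ▸ h)
    rw [habs] at h1
    have h2 := (mul_le_mul_of_nonneg_right hT (by positivity)).trans h1
    rw [div_div, mul_one_div, div_le_iff₀ (by positivity)] at h2
    have h3 : ((Y ^ n : ℕ) : ℝ) ≤ ((2 * c.natAbs * δ : ℕ) : ℝ) := by push_cast at h2 ⊢; linarith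
    exact_mod_cast h3
  have hΛ : ((n : ℤ) : ℝ) * Real.log ((x : ℝ) / y) -
      ((1 : ℤ) : ℝ) * Real.log ((b : ℝ) / a) ≠ 0 := fun h0 => by
    rw [← hlog, sub_eq_zero] at h0
    refine hc ?_
    rw [← he, sub_eq_zero]
    exact_mod_cast Real.log_injOn_pos (Set.mem_Ioi.2 hX) (Set.mem_Ioi.2 hZ) h0
  by_cases hind : ∀ u v : ℤ, u * Real.log ((x : ℝ) / y) + v * Real.log ((b : ℝ) / a) = 0 →
      u = 0 ∧ v = 0
  · set g₁ := Nat.log 2 Y + 1
    set g₂ := Nat.log 2 (max a b) + 1
    set m := Nat.log 2 n + 1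
    have hYg := Nat.lt_pow_succ_log_self one_lt_two Y
    have hab := Nat.lt_pow_succ_log_self one_lt_two (max a b)
    have hm : n + 1 ≤ 2 ^ m := Nat.lt_pow_succ_log_self one_lt_two n
    have hlow := two_logarithms_sharp_bound hx hy hb ha (g₁ := g₁) (g₂ := g₂) (Nat.succ_pos _)
      (Nat.succ_pos _)
      ⟨le_trans (le_max_left _ _) hYg.le, le_trans (le_max_right _ _) hYg.le⟩
      ⟨le_trans (le_max_right _ _) hab.le, le_trans (le_max_left _ _) hab.le⟩ hind
      (b₁ := (n : ℤ)) (b₂ := 1) (Or.inr one_ne_zero) (m := m) (Nat.succ_pos _) (by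
        rw [Int.natAbs_natCast, Int.natAbs_one, mul_one]
        calc g₁ * n + g₂ ≤ g₁ * g₂ * n + g₁ * g₂ := Nat.add_le_add
              (Nat.mul_le_mul_right _ (Nat.le_mul_of_pos_right _ (Nat.succ_pos _)))
              (Nat.le_mul_of_pos_left _ (Nat.succ_pos _))
          _ = (n + 1) * (g₁ * g₂) := by ring
          _ ≤ 2 ^ m * (g₁ * g₂) := Nat.mul_le_mul_right _ hm)
    set W := 3 * 256 ^ 4 * g₂ * m ^ 2 with hW
    refine (hmain (2 ^ (g₁ * W)) (pow_pos two_pos _) (by
      push_cast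
      rw [show g₁ * W = 3 * (256 ^ 4 * (g₁ * g₂) * m ^ 2) by rw [hW]; ring]
      push_cast at hlow
      exact hlow)).trans (Nat.mul_le_mul_left _ ?_)
    rw [show rootExponent a b n = 2 * W by rw [hW, rootExponent]; ring, pow_mul Y 2 W,
      pow_mul 2 g₁ W]
    refine Nat.pow_le_pow_left ?_ _
    calc 2 ^ g₁ = 2 ^ Nat.log 2 Y * 2 := pow_succ _ _
      _ ≤ Y * Y := Nat.mul_le_mul (Nat.pow_log_le_self 2 (by omega)) hY2
      _ = Y ^ 2 := (sq Y).symm
  · simp only [not_forall] at hind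
    obtain ⟨p, q, hrel, hpq⟩ := hind
    have hq : q ≠ 0 := fun h0 => by
      rw [h0, Int.cast_zero, zero_mul, add_zero, mul_eq_zero] at hrel
      refine hpq ⟨?_, h0⟩
      rcases hrel with h | h
      · exact_mod_cast h
      · exfalso
        refine hne ?_
        have h1 := Real.eq_one_of_pos_of_log_eq_zero (by positivity) h
        rw [div_eq_one_iff_eq (by positivity)] at h1
        exact_mod_cast h1
    exact (hmain Y hY1 (lower_of_dependent hx hy hb ha hne hq hrel hΛ)).trans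
      (Nat.mul_le_mul_left _ (Nat.le_self_pow (by omega) _))

end FA.RootApproximation

end
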