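import Fermat.Agent.RootApproximation.FormLower
import Fermat.Agent.BakerExplicit.Superelliptic
import Mathlib.RingTheory.RootsOfUnity.Complex

/-!
# Approximating `(b / a) ^ (1 / n)`, and the binomial Thue equation effectively

The lower bound for the form gives an irrationality measure `O ((log n) ^ 2)`; Tijdeman's bound for
`n` and Baker's bound for superelliptic equations give all solutions of `a x ^ n - b y ^ n = c`.
-/

set_option autoImplicit false

noncomputable section

namespace FA.RootApproximation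

open Polynomial

/-- The constant in the measure. -/
def rootConst (a b n : ℕ) : ℕ := 2 * a * n * (2 * max a b) ^ (n + rootExponent a b n)

/-- The value from which the exponent is at most `n / 2`. -/
def beatingBound (a b : ℕ) : ℕ := 64 * (2 * (6 * 256 ^ 4 * (Nat.log 2 (max a b) + 1))) ^ 2

/-- A bound for all unknowns of `a x ^ n - b y ^ n = c`. -/
def solutionBound (a b c : ℕ) : ℕ :=
  TwoLogarithms.binomialBound a b c + ∑ i ∈ Finset.range (TwoLogarithms.binomialBound a b c + 1),
    2 ^ BakerExplicit.Superelliptic.powerBound i (max (max a b) c) i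

theorem abs_pow_sub_le {X α M : ℝ} (hX : 0 ≤ X) (hα : 0 ≤ α) (hXM : X ≤ M) (hαM : α ≤ M)
    (n : ℕ) : |X ^ n - α ^ n| ≤ n * M ^ (n - 1) * |X - α| := by
  refine (abs_pow_sub_pow_le X α n).trans ?_
  rw [abs_of_nonneg hX, abs_of_nonneg hα, mul_comm, mul_comm |X - α|, ← mul_assoc]
  refine mul_le_mul_of_nonneg_right (le_of_eq_of_le ?_ (mul_le_mul_of_nonneg_left
    (pow_le_pow_left₀ (le_max_of_le_left hX) (max_le hXM hαM) _) (Nat.cast_nonneg n)))
    (abs_nonneg _)
  ring

/-- **The irrationality measure.** -/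
theorem measure_lower {a b n : ℕ} (ha : 0 < a) (hb : 0 < b) (hn : 0 < n) (x : ℚ)
    (hne : (x : ℝ) ≠ ((b : ℝ) / a) ^ ((n : ℝ)⁻¹)) :
    1 / ((rootConst a b n : ℕ) * (x.den : ℝ) ^ rootExponent a b n) ≤
      |((b : ℝ) / a) ^ ((n : ℝ)⁻¹) - x| := by
  set α : ℝ := ((b : ℝ) / a) ^ ((n : ℝ)⁻¹) with hα
  set E := rootExponent a b n with hE
  set C := rootConst a b n with hC
  set M : ℕ := max a b with hM
  have hba : (0 : ℝ) < (b : ℝ) / a := by positivity
  have hα0 : 0 < α := Real.rpow_pos_of_pos hba _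
  have hαn : α ^ n = (b : ℝ) / a := Real.rpow_inv_natCast_pow hba.le hn.ne'
  have haR : (1 : ℝ) ≤ a := by exact_mod_cast ha
  have hM1 : (1 : ℝ) ≤ M := by exact_mod_cast le_max_of_le_left ha
  have hbM : (b : ℝ) ≤ M := Nat.cast_le.2 (le_max_right a b)
  have hαM : α ≤ M := by
    rcases le_or_gt α 1 with h | h
    · exact h.trans hM1
    · refine (le_self_pow₀ h.le hn.ne').trans ?_
      rw [hαn]
      exact (div_le_self (Nat.cast_nonneg _) haR).trans hbM
  have hαa : 1 / (a : ℝ) ≤ α := by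
    rw [div_le_iff₀ (by linarith)]
    by_contra! h
    have h1 : α < 1 := (le_mul_of_one_le_right hα0.le haR).trans_lt h
    have h2 : α ^ n ≤ α := pow_le_of_le_one hα0.le h1.le hn.ne'
    rw [hαn, div_le_iff₀ (by linarith)] at h2
    have : (1 : ℝ) ≤ b := by exact_mod_cast hb
    linarith
  have hCa : a ≤ C := by
    rw [hC, rootConst, mul_assoc (2 * a), mul_comm 2 a, mul_assoc]
    exact Nat.le_mul_of_pos_right _ (Nat.mul_pos two_pos (Nat.mul_pos hn
      (Nat.pow_pos (by have := le_max_of_le_left (b := a) (c := b) ha; omega))))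
  have hden : (1 : ℝ) ≤ (x.den : ℝ) ^ E := one_le_pow₀ (by exact_mod_cast x.den_pos)
  have hC0 : (0 : ℝ) < C := by
    have : 0 < C := lt_of_lt_of_le ha hCa
    exact_mod_cast this
  have hsmall : 1 / ((C : ℝ) * (x.den : ℝ) ^ E) ≤ 1 / (a : ℝ) :=
    one_div_le_one_div_of_le (by linarith)
      ((Nat.cast_le.2 hCa).trans (le_mul_of_one_le_right hC0.le hden))
  rcases le_or_gt x 0 with hx0 | hx0
  · refine hsmall.trans (hαa.trans ?_)
    rw [abs_of_pos (by have : (x : ℝ) ≤ 0 := (by exact_mod_cast hx0); linarith)]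
    have : (x : ℝ) ≤ 0 := by exact_mod_cast hx0
    linarith
  rcases le_or_gt (2 * (M : ℝ)) x with hbig | hbig
  · refine hsmall.trans ((div_le_one (by linarith)).2 haR |>.trans ?_)
    rw [abs_of_neg (by linarith)]
    linarith
  -- the numerator and the denominator
  obtain ⟨p, hp⟩ : ∃ p : ℕ, (p : ℤ) = x.num := ⟨x.num.toNat, Int.toNat_of_nonneg
    (Rat.num_nonneg.2 hx0.le)⟩
  set q := x.den with hq
  have hq0 : (0 : ℝ) < q := Nat.cast_pos.2 x.den_pos
  have hp0 : 0 < p := by have := Rat.num_pos.2 hx0; omega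
  have hxR : (x : ℝ) = (p : ℝ) / q := by rw [Rat.cast_def, ← hp, Int.cast_natCast, hq]
  rw [hxR] at hne hbig ⊢
  set δ := |α - (p : ℝ) / q|
  set c : ℤ := (a : ℤ) * (p : ℤ) ^ n - (b : ℤ) * (q : ℤ) ^ n with hcdef
  have hcR : (c : ℝ) = a * (q : ℝ) ^ n * (((p : ℝ) / q) ^ n - α ^ n) := by
    rw [hcdef, hαn, div_pow]
    push_cast
    field_simp
  have hc : c ≠ 0 := fun h0 => by
    rw [h0, Int.cast_zero, eq_comm, mul_eq_zero, sub_eq_zero] at hcR
    exact hne ((pow_left_inj₀ (by positivity) hα0.le hn.ne').1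
      (hcR.resolve_left (by positivity)))
  have hkey := pow_le_mul_form ha hb hp0 x.den_pos hc rfl
  have hpq : max p q ≤ 2 * M * q := by
    refine max_le ?_ (Nat.le_mul_of_pos_left _ (by
      have := le_max_of_le_left (b := a) (c := b) ha; omega))
    rw [div_lt_iff₀ hq0] at hbig
    exact_mod_cast hbig.le
  have h1 : ((q : ℝ)) ^ n ≤ 2 * |(c : ℝ)| * ((2 * M : ℕ) * (q : ℝ)) ^ E := by
    have h : q ^ n ≤ 2 * c.natAbs * (2 * M * q) ^ E :=
      (Nat.pow_le_pow_left (le_max_right p q) n).trans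
        (hkey.trans (Nat.mul_le_mul_left _ (Nat.pow_le_pow_left hpq _)))
    have h' := (Nat.cast_le (α := ℝ)).2 h
    push_cast at h' ⊢
    rwa [Nat.cast_natAbs, Int.cast_abs] at h'
  have h2 : |(c : ℝ)| ≤ a * (q : ℝ) ^ n * (n * (2 * (M : ℝ)) ^ n * δ) := by
    rw [hcR, abs_mul, abs_of_pos (show (0 : ℝ) < a * (q : ℝ) ^ n by positivity)]
    refine mul_le_mul_of_nonneg_left ?_ (by positivity)
    refine (abs_pow_sub_le (M := 2 * (M : ℝ)) (by positivity) hα0.le
      hbig.le (hαM.trans (by linarith)) n).trans ?_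
    rw [abs_sub_comm ((p : ℝ) / q) α]
    refine mul_le_mul_of_nonneg_right (mul_le_mul_of_nonneg_left
      (pow_le_pow_right₀ (by linarith) (Nat.sub_le n 1)) (Nat.cast_nonneg _)) (abs_nonneg _)
  have h3 : (q : ℝ) ^ n * 1 ≤ (q : ℝ) ^ n * (δ * ((C : ℝ) * (q : ℝ) ^ E)) := by
    rw [mul_one]
    refine h1.trans ((mul_le_mul_of_nonneg_right (mul_le_mul_of_nonneg_left h2 zero_le_two)
      (by positivity)).trans_eq ?_)
    rw [hC, rootConst, ← hE, ← hM]
    push_cast
    rw [mul_pow, pow_add]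
    ring
  rw [div_le_iff₀ (by positivity)]
  exact le_of_mul_le_mul_left h3 (by positivity)

/-- From `beatingBound` on the exponent is at most `n / 2`. -/
theorem rootExponent_le_half {a b n : ℕ} (hn : beatingBound a b < n) :
    2 * rootExponent a b n ≤ n := by
  by_contra! h
  have := TwoLogarithms.le_of_le_add_mul_log_sq (m := n) (u := 0)
    (D := 2 * (6 * 256 ^ 4 * (Nat.log 2 (max a b) + 1))) (by omega) (by
      rw [rootExponent] at h
      rw [zero_add, mul_assoc]
      exact h.le)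
  rw [beatingBound] at hn
  omega

/-- **All solutions of the binomial Thue equation are bounded.** -/
theorem solution_le {a b x y n : ℕ} (ha : 0 < a) (hb : 0 < b) (hx : 0 < x) (hy : 0 < y)
    (hxy : 2 ≤ max x y) (hn : 3 ≤ n) {c : ℤ} (hc : c ≠ 0)
    (he : (a : ℤ) * x ^ n - (b : ℤ) * y ^ n = c) :
    x ≤ solutionBound a b c.natAbs ∧ y ≤ solutionBound a b c.natAbs ∧
      n ≤ solutionBound a b c.natAbs := by
  have hnB := TwoLogarithms.tijdeman_bound ha hb hx hy hxy hc he
  set k := max (max a b) c.natAbs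
  set f : ℤ[X] := C (a : ℤ) * X ^ n - C c with hf
  have ha0 : (a : ℂ) ≠ 0 := Nat.cast_ne_zero.2 ha.ne'
  obtain ⟨w, hw⟩ := IsAlgClosed.exists_pow_nat_eq ((c : ℂ) / a) (n := n) (by omega)
  have hw0 : w ≠ 0 := fun h => by
    rw [h, zero_pow (by omega), eq_comm, div_eq_zero_iff] at hw
    exact hw.elim (fun h => hc (Int.cast_eq_zero.1 h)) ha0
  have hζ := Complex.isPrimitiveRoot_exp n (by omega)
  set ζ := Complex.exp (2 * Real.pi * Complex.I / n)
  have hne : w ≠ w * ζ := fun h => hζ.ne_one (by omega) ((mul_eq_left₀ hw0).1 h.symm)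
  have hinj : Function.Injective ![w, w * ζ] := fun i j h => by
    fin_cases i <;> fin_cases j <;> simp_all
  have hroot : ∀ i, aeval (![w, w * ζ] i) f = 0 := fun i => by
    fin_cases i <;>
      simp [hf, mul_pow, hζ.pow_eq_one, hw, mul_div_cancel₀ _ ha0]
  have hroot' : ∀ i, aeval (![w, w * ζ] i) f.derivative ≠ 0 := fun i => by
    fin_cases i <;>
      simp [hf, derivative_X_pow, hw0, hζ.ne_zero (by omega : n ≠ 0), ha0] <;> omega
  have hk : ∀ i, (f.coeff i).natAbs ≤ 2 ^ k := fun i => by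
    refine le_trans ?_ Nat.lt_two_pow_self.le
    rw [hf, coeff_sub, coeff_C_mul, coeff_X_pow, coeff_C]
    have h1 : a ≤ k := le_max_of_le_left (le_max_left _ _)
    have h2 : c.natAbs ≤ k := le_max_right _ _
    split_ifs <;> omega
  have hbk : (b : ℤ).natAbs ≤ 2 ^ k := by
    rw [Int.natAbs_natCast]
    exact le_trans (le_max_of_le_left (le_max_right _ _)) Nat.lt_two_pow_self.le
  have heq : (b : ℤ) * (y : ℤ) ^ n = f.eval (x : ℤ) := by
    rw [hf, eval_sub, eval_mul, eval_C, eval_pow, eval_X, eval_C]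
    linarith
  have h1 := BakerExplicit.Superelliptic.power_bound (f := f) (n := n) (k := k) (m := n)
    (by rw [hf, natDegree_sub_C]; exact (natDegree_C_mul_X_pow_le _ _)) hk hn
    (Int.natCast_ne_zero.2 hb.ne') hbk heq hinj hroot hroot'
  rw [Int.natAbs_natCast, Int.natAbs_natCast] at h1
  have h2 : 2 ^ BakerExplicit.Superelliptic.powerBound n k n ≤ solutionBound a b c.natAbs :=
    le_add_left (Finset.single_le_sum
      (f := fun i => 2 ^ BakerExplicit.Superelliptic.powerBound i k i)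
      (fun _ _ => Nat.zero_le _) (Finset.mem_range.2 (by omega)))
  exact ⟨h1.1.le.trans h2, h1.2.le.trans h2, hnB.trans (Nat.le_add_right _ _)⟩

end FA.RootApproximation

end
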